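import Fermat.Agent.HiltonMilner.Shifting

/-!
# Two cross-intersecting families

Nonempty cross-intersecting families of `e`-sets among `m ≥ 2e` points have together at most
`C(m, e) - C(m - e, e) + 1` members.
-/

set_option autoImplicit false

noncomputable section

namespace FA.HiltonMilner

open Finset

/-- The bound for ground sets below `m`. -/
theorem card_add_card_le : ∀ m e : ℕ, 2 * e ≤ m → ∀ A B : Finset (Finset ℕ),
    IsFamily m e A → IsFamily m e B → A.Nonempty → B.Nonempty → Cross A B →
    #A + #B + (m - e).choose e ≤ m.choose e + 1 := by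
  intro m
  induction m with
  | zero =>
    intro e he A B hA hB ⟨a, ha⟩ ⟨b, hb⟩ h
    refine absurd ?_ (h a ha b hb)
    rw [show a = ∅ from subset_empty.1 (by simpa using hA.subset ha)]
    exact disjoint_empty_left b
  | succ m ih =>
    intro e he A B hA hB hAn hBn h
    induction hw : weight A + weight B using Nat.strong_induction_on generalizing A B with
    | _ w ihw =>
    by_cases hA' : Shifted (m + 1) A
    swap
    · unfold Shifted at hA'
      push Not at hA'
      obtain ⟨a, ha, i, j, hij, -, hj, hi, hm⟩ := hA'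
      have := ihw _ (hw ▸ Nat.add_lt_add_of_lt_of_le (weight_shift_lt hij ha hj hi hm)
        (weight_shift_le hij B)) (shift i j A) (shift i j B) (isFamily_shift hij hA)
        (isFamily_shift hij hB) (hAn.image _) (hBn.image _) (cross_shift h) rfl
      rwa [card_shift, card_shift] at this
    by_cases hB' : Shifted (m + 1) B
    swap
    · unfold Shifted at hB'
      push Not at hB'
      obtain ⟨b, hb, i, j, hij, -, hj, hi, hm⟩ := hB'
      have := ihw _ (hw ▸ Nat.add_lt_add_of_le_of_lt (weight_shift_le hij A)
        (weight_shift_lt hij hb hj hi hm)) (shift i j A) (shift i j B) (isFamily_shift hij hA)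
        (isFamily_shift hij hB) (hAn.image _) (hBn.image _) (cross_shift h) rfl
      rwa [card_shift, card_shift] at this
    rcases Nat.lt_or_ge m (2 * e) with hlt | hge
    · -- complements
      have hm : m + 1 = 2 * e := by omega
      have hsdiff : ∀ a ∈ A, range (m + 1) \ a ∈ (range (m + 1)).powersetCard e \ B := by
        intro a ha
        refine mem_sdiff.2 ⟨mem_powersetCard.2 ⟨sdiff_subset, ?_⟩, fun hb => h a ha _ hb
          disjoint_sdiff⟩
        rw [card_sdiff_of_subset (hA.subset ha), card_range, hA.card ha]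
        omega
      have h1 := card_le_card_of_injOn (fun a => range (m + 1) \ a) hsdiff fun a ha b hb hab => by
        rw [← Finset.sdiff_sdiff_eq_self (hA.subset ha),
            ← Finset.sdiff_sdiff_eq_self (hA.subset (mem_coe.1 hb)),
          show range (m + 1) \ a = range (m + 1) \ b from hab]
      rw [card_sdiff_of_subset hB, card_powersetCard, card_range] at h1
      have h2 : #B ≤ (m + 1).choose e := by simpa using card_le_card hB
      rw [show m + 1 - e = e by omega, Nat.choose_self]
      omega
    obtain ⟨a, ha⟩ := hAn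
    obtain ⟨b, hb⟩ := hBn
    have he0 : 0 < e := by
      rcases Nat.eq_zero_or_pos e with rfl | he0
      · exact absurd (by rw [card_eq_zero.1 (hA.card ha)]; exact disjoint_empty_left b)
          (h a ha b hb)
      · exact he0
    have hlow : ∀ {F : Finset (Finset ℕ)}, IsFamily (m + 1) e F → Shifted (m + 1) F → ∀ {a},
        a ∈ F → (low m F).Nonempty := fun {F} hF hs {a} ha => by
      by_cases hma : m ∈ a
      · obtain ⟨y, hy, hyT, hmove⟩ := hs.exists_move ha hma m.lt_succ_self a (subset_insert _ _)
          (by rw [hF.card ha]; omega)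
        refine ⟨_, mem_filter.2 ⟨hmove, fun hm => ?_⟩⟩
        rcases mem_insert.1 hm with e | hm
        · omega
        · exact notMem_erase m a hm
      · exact ⟨a, mem_filter.2 ⟨ha, hma⟩⟩
    obtain ⟨a₀, ha₀⟩ := hlow hA hA' ha
    obtain ⟨b₀, hb₀⟩ := hlow hB hB' hb
    have hA₁ := isFamily_link hA
    have hB₁ := isFamily_link hB
    have h0 := ih e hge _ _ (isFamily_low hA) (isFamily_low hB) ⟨a₀, ha₀⟩ ⟨b₀, hb₀⟩
      fun x hx y hy => h x (mem_filter.1 hx).1 y (mem_filter.1 hy).1
    have hmeet : ∀ {F G : Finset (Finset ℕ)}, IsFamily (m + 1) e F → Cross F G → ∀ {c},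
        c ∈ G → m ∉ c → ∀ x ∈ link m F, ¬Disjoint x c := by
      intro F G hF hc c hcG hmc x hx hd
      obtain ⟨f, hf, rfl⟩ := mem_image.1 hx
      refine hc f (mem_filter.1 hf).1 c hcG (disjoint_left.2 fun y hy hyc => ?_)
      exact disjoint_left.1 hd (mem_erase.2 ⟨fun e => hmc (e ▸ hyc), hy⟩) hyc
    have h1 : #(link m A) + #(link m B) + (m - e).choose (e - 1) ≤ m.choose (e - 1) := by
      by_cases hAl : (link m A).Nonempty
      swap
      · have := card_meet (s := range m) (r := e - 1) ((isFamily_low hA).subset ha₀)
          (T := link m B) fun x hx => ⟨hB₁.subset hx, hB₁.card hx,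
            hmeet hB (fun b hb a ha hd => h a ha b hb hd.symm) (mem_filter.1 ha₀).1
              (mem_filter.1 ha₀).2 x hx⟩
        rw [card_range, (isFamily_low hA).card ha₀] at this
        simp only [not_nonempty_iff_eq_empty.1 hAl, card_empty]
        omega
      by_cases hBl : (link m B).Nonempty
      swap
      · have := card_meet (s := range m) (r := e - 1) ((isFamily_low hB).subset hb₀)
          (T := link m A) fun x hx => ⟨hA₁.subset hx, hA₁.card hx,
            hmeet hA h (mem_filter.1 hb₀).1 (mem_filter.1 hb₀).2 x hx⟩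
        rw [card_range, (isFamily_low hB).card hb₀] at this
        simp only [not_nonempty_iff_eq_empty.1 hBl, card_empty]
        omega
      have hc := cross_link hA hB hA' hge h
      obtain ⟨x, hx⟩ := hAl
      obtain ⟨y, hy⟩ := hBl
      obtain ⟨z, hzx, hzy⟩ := not_disjoint_iff.1 (hc x hx y hy)
      have h2 : 2 ≤ e := by
        have := card_pos.2 ⟨z, hzx⟩
        rw [hA₁.card hx] at this
        omega
      have h3 := ih (e - 1) (by omega) _ _ hA₁ hB₁ ⟨x, hx⟩ ⟨y, hy⟩ hc
      have h4 : (m - (e - 1)).choose (e - 1) =
          (m - e).choose (e - 2) + (m - e).choose (e - 1) := by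
        rw [show m - (e - 1) = m - e + 1 by omega, show e - 1 = e - 2 + 1 by omega,
          Nat.choose_succ_succ']
      have h5 : 0 < (m - e).choose (e - 2) := Nat.choose_pos (by omega)
      omega
    obtain ⟨d, rfl⟩ : ∃ d, e = d + 1 := ⟨e - 1, by omega⟩
    rw [Nat.choose_succ_succ', ← card_low_add_link m A, ← card_low_add_link m B,
      show m + 1 - (d + 1) = m - (d + 1) + 1 by omega, Nat.choose_succ_succ']
    simp only [Nat.add_sub_cancel] at h1
    omega

/-- The bound in any finite ground set. -/
theorem card_add_card_le_of_subset {α : Type*} [DecidableEq α] {s : Finset α} {e : ℕ}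
    (he : 2 * e ≤ #s) {A B : Finset (Finset α)} (hA : A ⊆ s.powersetCard e)
    (hB : B ⊆ s.powersetCard e) (hAn : A.Nonempty) (hBn : B.Nonempty) (h : Cross A B) :
    #A + #B + (#s - e).choose e ≤ (#s).choose e + 1 := by
  classical
  set g : α → ℕ := fun x => if hx : x ∈ s then (s.equivFin ⟨x, hx⟩ : ℕ) else 0
  have hinj : Set.InjOn g s := fun x hx y hy hxy => by
    simp only [g, dif_pos (mem_coe.1 hx), dif_pos (mem_coe.1 hy)] at hxy
    exact congrArg Subtype.val (s.equivFin.injective (Fin.ext hxy))
  have hfam : ∀ {A : Finset (Finset α)}, A ⊆ s.powersetCard e →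
      IsFamily #s e (A.image fun a => a.image g) ∧ #(A.image fun a => a.image g) = #A := by
    intro A hA
    refine ⟨fun b hb => ?_, card_image_of_injOn fun a ha b hb hab => ?_⟩
    · obtain ⟨a, ha, rfl⟩ := mem_image.1 hb
      obtain ⟨has, hac⟩ := mem_powersetCard.1 (hA ha)
      refine mem_powersetCard.2 ⟨fun y hy => ?_, by rw [card_image_of_injOn (hinj.mono has), hac]⟩
      obtain ⟨x, hx, rfl⟩ := mem_image.1 hy
      simp only [g, dif_pos (has hx), mem_range]
      exact Fin.is_lt _
    · have := congrArg (fun t : Finset ℕ => s.filter fun x => g x ∈ t) hab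
      have e : ∀ a ∈ A, (s.filter fun x => g x ∈ a.image g) = a := fun a ha => by
        have has := (mem_powersetCard.1 (hA ha)).1
        ext x
        simp only [mem_filter, mem_image]
        exact ⟨fun ⟨hx, y, hy, hyx⟩ => hinj (has hy) hx hyx ▸ hy,
          fun hx => ⟨has hx, x, hx, rfl⟩⟩
      rwa [e a ha, e b hb] at this
  have hcross : Cross (A.image fun a => a.image g) (B.image fun b => b.image g) := by
    intro a' ha' b' hb' hd
    obtain ⟨a, ha, rfl⟩ := mem_image.1 ha'
    obtain ⟨b, hb, rfl⟩ := mem_image.1 hb'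
    exact h a ha b hb (disjoint_left.2 fun x hx hxb =>
      disjoint_left.1 hd (mem_image_of_mem g hx) (mem_image_of_mem g hxb))
  have := card_add_card_le #s e he _ _ (hfam hA).1 (hfam hB).1 (hAn.image _) (hBn.image _) hcross
  rwa [(hfam hA).2, (hfam hB).2] at this

end FA.HiltonMilner
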