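import Fermat.Agent.HiltonMilner.Cross

/-!
# The theorem of Hilton and Milner

Either the shifts reach a shifted family without a common point, and the last point splits it, or
two points meet all members and the bound for cross-intersecting families applies.
-/

set_option autoImplicit false

noncomputable section

namespace FA.HiltonMilner

open Finset

theorem choose_pascal (a b : ℕ) (ha : 0 < a) (hb : 0 < b) :
    a.choose b = (a - 1).choose (b - 1) + (a - 1).choose b := by
  obtain ⟨a, rfl⟩ : ∃ c, a = c + 1 := ⟨a - 1, by omega⟩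
  obtain ⟨b, rfl⟩ : ∃ c, b = c + 1 := ⟨b - 1, by omega⟩
  simp [Nat.choose_succ_succ']

/-- Two points meet all members. -/
theorem le_of_cover {n k : ℕ} (hk : 2 ≤ k) (hn : 2 * k ≤ n) {F : Finset (Finset ℕ)}
    (hF : IsFamily n k F) (h : Cross F F) (hnt : ∀ x, ∃ a ∈ F, x ∉ a) {p q : ℕ} (hpq : p ≠ q)
    (hp : p < n) (hq : q < n) (hcover : ∀ a ∈ F, p ∈ a ∨ q ∈ a) :
    #F + (n - k - 1).choose (k - 1) ≤ (n - 1).choose (k - 1) + 1 := by
  set s := ((range n).erase p).erase q
  have hs : #s = n - 2 := by
    rw [card_erase_of_mem (mem_erase.2 ⟨hpq.symm, mem_range.2 hq⟩),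
      card_erase_of_mem (mem_range.2 hp), card_range]
    omega
  set A := F.filter fun a => p ∈ a ∧ q ∉ a
  set B := F.filter fun a => p ∉ a
  set C := F.filter fun a => p ∈ a ∧ q ∈ a
  have hsplit : #F = #A + #B + #C := by
    rw [← card_filter_add_card_filter_not (s := F) (fun a => p ∈ a),
      ← card_filter_add_card_filter_not (s := F.filter fun a => p ∈ a) (fun a => q ∈ a),
      filter_filter, filter_filter]
    simp only [A, B, C]
    omega
  have hBq : ∀ b ∈ B, q ∈ b := fun b hb =>
    (hcover b (mem_filter.1 hb).1).resolve_left (mem_filter.1 hb).2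
  have hC : #C ≤ (n - 2).choose (k - 2) := by
    have h2 := card_le_card_of_injOn (s := C) (t := s.powersetCard (k - 2))
      (fun a => (a.erase p).erase q) (fun a ha => ?_) fun a ha b hb hab => ?_
    · rwa [card_powersetCard, hs] at h2
    · obtain ⟨haF, hap, haq⟩ := mem_filter.1 ha
      refine mem_powersetCard.2 ⟨erase_subset_erase _ (erase_subset_erase _ (hF.subset haF)), ?_⟩
      rw [card_erase_of_mem (mem_erase.2 ⟨hpq.symm, haq⟩), card_erase_of_mem hap, hF.card haF]
      omega
    · obtain ⟨-, hap, haq⟩ := mem_filter.1 (mem_coe.1 ha)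
      obtain ⟨-, hbp, hbq⟩ := mem_filter.1 (mem_coe.1 hb)
      rw [← insert_erase hap, ← insert_erase (mem_erase.2 ⟨hpq.symm, haq⟩), ← insert_erase hbp,
        ← insert_erase (mem_erase.2 ⟨hpq.symm, hbq⟩),
        show (a.erase p).erase q = (b.erase p).erase q from hab]
  set A' := A.image fun a => a.erase p
  set B' := B.image fun a => a.erase q
  have hA' : #A' = #A := card_image_of_injOn (erase_injOn p A fun a ha => (mem_filter.1 ha).2.1)
  have hB' : #B' = #B := card_image_of_injOn (erase_injOn q B hBq)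
  have hAs : A' ⊆ s.powersetCard (k - 1) := by
    intro x hx
    obtain ⟨a, ha, rfl⟩ := mem_image.1 hx
    obtain ⟨haF, hap, haq⟩ := mem_filter.1 ha
    refine mem_powersetCard.2 ⟨fun y hy => mem_erase.2 ⟨?_, mem_erase.2 ⟨ne_of_mem_erase hy,
      hF.subset haF (mem_of_mem_erase hy)⟩⟩, by rw [card_erase_of_mem hap, hF.card haF]⟩
    exact fun e => haq (e ▸ mem_of_mem_erase hy)
  have hBs : B' ⊆ s.powersetCard (k - 1) := by
    intro x hx
    obtain ⟨b, hb, rfl⟩ := mem_image.1 hx
    obtain ⟨hbF, hbp⟩ := mem_filter.1 hb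
    refine mem_powersetCard.2 ⟨fun y hy => mem_erase.2 ⟨ne_of_mem_erase hy, mem_erase.2 ⟨?_,
      hF.subset hbF (mem_of_mem_erase hy)⟩⟩, by rw [card_erase_of_mem (hBq b hb), hF.card hbF]⟩
    exact fun e => hbp (e ▸ mem_of_mem_erase hy)
  have hcross : Cross A' B' := by
    intro x hx y hy hd
    obtain ⟨a, ha, rfl⟩ := mem_image.1 hx
    obtain ⟨b, hb, rfl⟩ := mem_image.1 hy
    obtain ⟨haF, hap, haq⟩ := mem_filter.1 ha
    obtain ⟨hbF, hbp⟩ := mem_filter.1 hb
    exact h a haF b hbF (disjoint_left.2 fun z hza hzb => disjoint_left.1 hd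
      (mem_erase.2 ⟨fun e => hbp (e ▸ hzb), hza⟩) (mem_erase.2 ⟨fun e => haq (e ▸ hza), hzb⟩))
  obtain ⟨a, haF, haq⟩ := hnt q
  obtain ⟨b, hbF, hbp⟩ := hnt p
  have hab := card_add_card_le_of_subset (e := k - 1) (by rw [hs]; omega) hAs hBs
    ⟨_, mem_image_of_mem _ (mem_filter.2 ⟨haF, (hcover a haF).resolve_right haq, haq⟩)⟩
    ⟨_, mem_image_of_mem _ (mem_filter.2 ⟨hbF, hbp⟩)⟩ hcross
  rw [hs, hA', hB', show n - 2 - (k - 1) = n - k - 1 by omega] at hab
  rw [choose_pascal (n - 1) (k - 1) (by omega) (by omega), show k - 1 - 1 = k - 2 by omega,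
    show n - 1 - 1 = n - 2 by omega]
  omega

/-- The links of the last point, when they have a common point. -/
theorem link_le_of_common {m r k : ℕ} {L : Finset (Finset ℕ)}
    (hL : IsFamily m r L) {p : ℕ} (hp : ∀ a ∈ L, p ∈ a) (hpm : p < m) {G : Finset ℕ}
    (hG : G ⊆ range m) (hGc : #G = k) (hpG : p ∉ G) (hmeet : ∀ a ∈ L, ¬Disjoint a G) :
    #L + (m - k - 1).choose (r - 1) ≤ (m - 1).choose (r - 1) := by
  have hG' : G ⊆ (range m).erase p := fun x hx =>
    mem_erase.2 ⟨fun e => hpG (e ▸ hx), hG hx⟩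
  have h := card_meet (s := (range m).erase p) (G := G) (r := r - 1)
    (T := L.image fun a => a.erase p) hG' fun x hx => by
      obtain ⟨a, ha, rfl⟩ := mem_image.1 hx
      refine ⟨erase_subset_erase _ (hL.subset ha), by rw [card_erase_of_mem (hp a ha), hL.card ha],
        fun hd => hmeet a ha (disjoint_left.2 fun y hy hyG => ?_)⟩
      exact disjoint_left.1 hd (mem_erase.2 ⟨fun e => hpG (e ▸ hyG), hy⟩) hyG
  rw [card_image_of_injOn (erase_injOn p L hp), card_erase_of_mem (mem_range.2 hpm), card_range,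
    hGc, show m - 1 - k = m - k - 1 by omega] at h
  exact h

/-- The theorem for subsets of `range n`. -/
theorem card_le_of_nontrivial : ∀ n k : ℕ, 2 ≤ k → 2 * k ≤ n → ∀ F : Finset (Finset ℕ),
    IsFamily n k F → Cross F F → (∀ x, ∃ a ∈ F, x ∉ a) →
    #F + (n - k - 1).choose (k - 1) ≤ (n - 1).choose (k - 1) + 1 := by
  intro n
  induction n with
  | zero => intro k hk hn; omega
  | succ m ih =>
    intro k hk hn F hF h hnt
    induction hw : weight F using Nat.strong_induction_on generalizing F with
    | _ w ihw =>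
    by_cases hs : Shifted (m + 1) F
    swap
    · unfold Shifted at hs
      push Not at hs
      obtain ⟨a, ha, i, j, hij, hjm, hj, hi, hm⟩ := hs
      by_cases hnt' : ∀ x, ∃ b ∈ shift i j F, x ∉ b
      · have := ihw _ (hw ▸ weight_shift_lt hij ha hj hi hm) _ (isFamily_shift hij hF)
          (cross_shift h) hnt' rfl
        rwa [card_shift] at this
      · push Not at hnt'
        obtain ⟨p, hp⟩ := hnt'
        have hp' : ∀ b ∈ F, p ∈ insert i b := fun b hb =>
          shiftOne_subset b (hp _ (mem_image_of_mem _ hb))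
        have hpi : p = i := by
          by_contra hne
          obtain ⟨b, hb, hpb⟩ := hnt p
          exact hpb ((mem_insert.1 (hp' b hb)).resolve_left hne)
        refine le_of_cover hk hn hF h hnt hij.ne (hij.trans hjm) hjm fun b hb => ?_
        have := hp _ (mem_image_of_mem (shiftOne i j F) hb)
        rw [hpi, shiftOne] at this
        split_ifs at this with hc
        · exact Or.inr hc.1
        · exact Or.inl this
    rcases Nat.lt_or_ge m (2 * k) with hlt | hge
    · -- complements
      have hmk : m + 1 = 2 * k := by omega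
      have hsdiff : ∀ a ∈ F, range (m + 1) \ a ∈ (range (m + 1)).powersetCard k \ F := by
        intro a ha
        refine mem_sdiff.2 ⟨mem_powersetCard.2 ⟨sdiff_subset, ?_⟩, fun hb => h a ha _ hb
          disjoint_sdiff⟩
        rw [card_sdiff_of_subset (hF.subset ha), card_range, hF.card ha]
        omega
      have h1 := card_le_card_of_injOn (fun a => range (m + 1) \ a) hsdiff fun a ha b hb hab => by
        rw [← Finset.sdiff_sdiff_eq_self (hF.subset ha),
          ← Finset.sdiff_sdiff_eq_self (hF.subset (mem_coe.1 hb)),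
          show range (m + 1) \ a = range (m + 1) \ b from hab]
      rw [card_sdiff_of_subset hF, card_powersetCard, card_range] at h1
      have h2 : (m + 1).choose k = m.choose (k - 1) + m.choose k := by
        simpa using choose_pascal (m + 1) k (by omega) (by omega)
      have h3 : m.choose k = m.choose (k - 1) := Nat.choose_symm_of_eq_add (by omega)
      rw [show m + 1 - k - 1 = k - 1 by omega, Nat.choose_self, show m + 1 - 1 = m by omega]
      omega
    -- the last point
    have hlowNT : ∀ x, ∃ a ∈ low m F, x ∉ a := by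
      intro x
      obtain ⟨a, ha, hxa⟩ := hnt x
      by_cases hma : m ∈ a
      · obtain ⟨y, hy, hyT, hmove⟩ := hs.exists_move ha hma m.lt_succ_self (insert x a)
          ((subset_insert x a).trans (subset_insert m _))
          (by rw [card_insert_of_notMem hxa, hF.card ha]; omega)
        rw [mem_insert, not_or] at hyT
        refine ⟨_, mem_filter.2 ⟨hmove, fun hm => ?_⟩, fun hx => ?_⟩
        · rcases mem_insert.1 hm with e | hm
          · omega
          · exact notMem_erase m a hm
        · rcases mem_insert.1 hx with e | hx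
          · exact hyT.1 e.symm
          · exact hxa (mem_of_mem_erase hx)
      · exact ⟨a, mem_filter.2 ⟨ha, hma⟩, hxa⟩
    have h0 := ih k hk hge (low m F) (isFamily_low hF)
      (fun a ha b hb => h a (mem_filter.1 ha).1 b (mem_filter.1 hb).1) hlowNT
    have hL := isFamily_link hF
    have hc := cross_link hF hF hs hge h
    have hmeet : ∀ a ∈ link m F, ∀ g ∈ low m F, ¬Disjoint a g := by
      intro a ha g hg hd
      obtain ⟨f, hf, rfl⟩ := mem_image.1 ha
      obtain ⟨hg, hmg⟩ := mem_filter.1 hg
      refine h f (mem_filter.1 hf).1 g hg (disjoint_left.2 fun y hy hyg => ?_)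
      exact disjoint_left.1 hd (mem_erase.2 ⟨fun e => hmg (e ▸ hyg), hy⟩) hyg
    have h1 : #(link m F) + (m - k - 1).choose (k - 2) ≤ (m - 1).choose (k - 2) := by
      by_cases hcom : ∀ x, ∃ a ∈ link m F, x ∉ a
      · -- no common point
        have hk3 : 3 ≤ k := by
          obtain ⟨a, ha, -⟩ := hcom 0
          obtain ⟨z, hza, -⟩ := not_disjoint_iff.1 (hc a ha a ha)
          obtain ⟨b, hb, hzb⟩ := hcom z
          obtain ⟨y, hya, hyb⟩ := not_disjoint_iff.1 (hc a ha b hb)
          have : #{z, y} ≤ #a := card_le_card (by simp [insert_subset_iff, hza, hya])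
          rw [card_pair (fun e => hzb (by rw [e]; exact hyb)), hL.card ha] at this
          omega
        have h2 := ih (k - 1) (by omega) (by omega) _ hL hc hcom
        rw [show k - 1 - 1 = k - 2 by omega, show m - (k - 1) - 1 = m - k by omega] at h2
        have h3 := choose_pascal (m - k) (k - 2) (by omega) (by omega)
        have h4 : 0 < (m - k - 1).choose (k - 2 - 1) := Nat.choose_pos (by omega)
        omega
      · push Not at hcom
        obtain ⟨p, hp⟩ := hcom
        rcases (link m F).eq_empty_or_nonempty with he | ⟨a, ha⟩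
        · rw [he, card_empty, zero_add]
          exact Nat.choose_le_choose _ (by omega)
        · obtain ⟨g, hg, hpg⟩ := hlowNT p
          have := link_le_of_common (r := k - 1) (k := k) hL hp
            (mem_range.1 (hL.subset ha (hp a ha))) ((isFamily_low hF).subset hg)
            ((isFamily_low hF).card hg) hpg (fun x hx => hmeet x hx g hg)
          rwa [show k - 1 - 1 = k - 2 by omega] at this
    rw [← card_low_add_link m F, choose_pascal (m + 1 - k - 1) (k - 1) (by omega) (by omega),
      choose_pascal (m + 1 - 1) (k - 1) (by omega) (by omega), show k - 1 - 1 = k - 2 by omega,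
      show m + 1 - k - 1 - 1 = m - k - 1 by omega, show m + 1 - 1 - 1 = m - 1 by omega]
    omega

/-- The theorem in any finite ground set. -/
theorem card_le_of_intersecting {α : Type*} [DecidableEq α] [Fintype α] {k : ℕ} (hk : 2 ≤ k)
    (hn : 2 * k ≤ Fintype.card α) {F : Finset (Finset α)} (hF : ∀ a ∈ F, #a = k)
    (h : ∀ a ∈ F, ∀ b ∈ F, ¬Disjoint a b) (hnt : ∀ x, ∃ a ∈ F, x ∉ a) :
    #F + (Fintype.card α - k - 1).choose (k - 1) ≤
      (Fintype.card α - 1).choose (k - 1) + 1 := by
  classical
  set g : α → ℕ := fun x => (Fintype.equivFin α x : ℕ)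
  have hg : Function.Injective g := Fin.val_injective.comp (Fintype.equivFin α).injective
  have : Nonempty α := Fintype.card_pos_iff.1 (by omega)
  have hfam : IsFamily (Fintype.card α) k (F.image fun a => a.image g) := fun b hb => by
    obtain ⟨a, ha, rfl⟩ := mem_image.1 hb
    refine mem_powersetCard.2 ⟨fun y hy => ?_, by rw [card_image_of_injective _ hg, hF a ha]⟩
    obtain ⟨x, -, rfl⟩ := mem_image.1 hy
    exact mem_range.2 (Fin.is_lt _)
  have := card_le_of_nontrivial _ k hk hn _ hfam ?_ ?_
  · rwa [card_image_of_injective _ (Finset.image_injective hg)] at this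
  · intro a' ha' b' hb'
    obtain ⟨a, ha, rfl⟩ := mem_image.1 ha'
    obtain ⟨b, hb, rfl⟩ := mem_image.1 hb'
    rw [disjoint_image hg]
    exact h a ha b hb
  · intro y
    by_cases hy : ∃ x, g x = y
    · obtain ⟨x, rfl⟩ := hy
      obtain ⟨a, ha, hxa⟩ := hnt x
      exact ⟨_, mem_image_of_mem _ ha, fun hx => hxa ((mem_image.1 hx).elim fun z hz =>
        hg hz.2 ▸ hz.1)⟩
    · obtain ⟨a, ha, -⟩ := hnt (Classical.arbitrary α)
      exact ⟨_, mem_image_of_mem _ ha, fun hx => hy ((mem_image.1 hx).imp fun z hz => hz.2)⟩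

/-- The extremal family. -/
theorem exists_extremal {α : Type*} [DecidableEq α] [Fintype α] {k : ℕ} (hk : 2 ≤ k)
    (hn : 2 * k ≤ Fintype.card α) :
    ∃ F : Finset (Finset α), (∀ a ∈ F, #a = k) ∧ (∀ a ∈ F, ∀ b ∈ F, ¬Disjoint a b) ∧
      (∀ x, ∃ a ∈ F, x ∉ a) ∧ #F + (Fintype.card α - k - 1).choose (k - 1) =
        (Fintype.card α - 1).choose (k - 1) + 1 := by
  classical
  obtain ⟨x⟩ : Nonempty α := Fintype.card_pos_iff.1 (by omega)
  obtain ⟨G, hGs, hG⟩ := exists_subset_card_eq (s := (univ : Finset α).erase x) (n := k) (by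
    rw [card_erase_of_mem (mem_univ x), card_univ]; omega)
  have hxG : x ∉ G := fun h => notMem_erase x _ (hGs h)
  set S := (univ : Finset α).erase x
  set T := (S.powersetCard (k - 1)) \ ((S \ G).powersetCard (k - 1))
  have hT : ∀ t ∈ T, t ⊆ S ∧ #t = k - 1 ∧ ¬Disjoint t G := fun t ht => by
    obtain ⟨h1, h2⟩ := mem_sdiff.1 ht
    obtain ⟨h3, h4⟩ := mem_powersetCard.1 h1
    exact ⟨h3, h4, fun hd => h2 (mem_powersetCard.2 ⟨fun y hy => mem_sdiff.2 ⟨h3 hy,
      disjoint_left.1 hd hy⟩, h4⟩)⟩
  have hxT : ∀ t ∈ T, x ∉ t := fun t ht h => notMem_erase x _ ((hT t ht).1 h)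
  have hGT : G ∉ T.image (insert x) := fun h => by
    obtain ⟨t, -, he⟩ := mem_image.1 h
    exact hxG (he ▸ mem_insert_self x t)
  refine ⟨insert G (T.image (insert x)), fun a ha => ?_, fun a ha b hb => ?_, fun p => ?_, ?_⟩
  · rcases mem_insert.1 ha with rfl | ha
    · exact hG
    · obtain ⟨t, ht, rfl⟩ := mem_image.1 ha
      rw [card_insert_of_notMem (hxT t ht), (hT t ht).2.1]
      omega
  · rcases mem_insert.1 ha with rfl | ha <;> rcases mem_insert.1 hb with rfl | hb
    · obtain ⟨y, hy⟩ := card_pos.1 (show 0 < #b by omega)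
      exact not_disjoint_iff.2 ⟨y, hy, hy⟩
    · obtain ⟨t, ht, rfl⟩ := mem_image.1 hb
      obtain ⟨y, hy, hyG⟩ := not_disjoint_iff.1 (hT t ht).2.2
      exact not_disjoint_iff.2 ⟨y, hyG, mem_insert_of_mem hy⟩
    · obtain ⟨t, ht, rfl⟩ := mem_image.1 ha
      obtain ⟨y, hy, hyG⟩ := not_disjoint_iff.1 (hT t ht).2.2
      exact not_disjoint_iff.2 ⟨y, mem_insert_of_mem hy, hyG⟩
    · obtain ⟨t, -, rfl⟩ := mem_image.1 ha
      obtain ⟨u, -, rfl⟩ := mem_image.1 hb
      exact not_disjoint_iff.2 ⟨x, mem_insert_self x t, mem_insert_self x u⟩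
  · by_cases hp : p ∈ G
    · obtain ⟨y, hy, hyp⟩ := exists_mem_ne (show 1 < #G by omega) p
      obtain ⟨t, hyt, htS, htc⟩ := exists_subsuperset_card_eq (s := {y}) (t := S.erase p)
        (n := k - 1) (singleton_subset_iff.2 (mem_erase.2 ⟨hyp, hGs hy⟩)) (by simp; omega) (by
          rw [card_erase_of_mem (hGs hp), card_erase_of_mem (mem_univ x), card_univ]; omega)
      have htT : t ∈ T := mem_sdiff.2 ⟨mem_powersetCard.2 ⟨htS.trans (erase_subset _ _), htc⟩,
        fun h => (mem_sdiff.1 ((mem_powersetCard.1 h).1 (singleton_subset_iff.1 hyt))).2 hy⟩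
      refine ⟨_, mem_insert_of_mem (mem_image_of_mem _ htT), fun h => ?_⟩
      rcases mem_insert.1 h with e | h
      · exact hxG (e ▸ hp)
      · exact notMem_erase p S (htS h)
    · exact ⟨G, mem_insert_self _ _, hp⟩
  · rw [card_insert_of_notMem hGT, card_image_of_injOn]
    · have hsub : (S \ G).powersetCard (k - 1) ⊆ S.powersetCard (k - 1) :=
        powersetCard_mono sdiff_subset
      have h1 : #T + #((S \ G).powersetCard (k - 1)) = #(S.powersetCard (k - 1)) :=
        card_sdiff_add_card_eq_card hsub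
      rw [card_powersetCard, card_powersetCard, card_sdiff_of_subset hGs,
        card_erase_of_mem (mem_univ x), card_univ, hG,
        show Fintype.card α - 1 - k = Fintype.card α - k - 1 by omega] at h1
      omega
    · intro t ht u hu he
      rw [← erase_insert (hxT t ht), ← erase_insert (hxT u hu),
        show insert x t = insert x u from he]

end FA.HiltonMilner
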