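import Mathlib

/-!
# Shifting

Replacing `j` by a smaller `i` keeps the size, the uniformity and the cross-intersection of
families, and lowers the sum of all elements unless nothing moves.
-/

set_option autoImplicit false

noncomputable section

namespace FA.HiltonMilner

open Finset

/-- Families any member of which meets any member of the other. -/
def Cross {α : Type*} (A B : Finset (Finset α)) : Prop := ∀ a ∈ A, ∀ b ∈ B, ¬Disjoint a b

/-- The sets of size `k` below `n`. -/
def IsFamily (n k : ℕ) (F : Finset (Finset ℕ)) : Prop := F ⊆ (range n).powersetCard k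

/-- `i` for `j`. -/
def move (i j : ℕ) (a : Finset ℕ) : Finset ℕ := insert i (a.erase j)

/-- The shift of one set relative to a family. -/
def shiftOne (i j : ℕ) (F : Finset (Finset ℕ)) (a : Finset ℕ) : Finset ℕ :=
  if j ∈ a ∧ i ∉ a ∧ move i j a ∉ F then move i j a else a

/-- The shifted family. -/
def shift (i j : ℕ) (F : Finset (Finset ℕ)) : Finset (Finset ℕ) := F.image (shiftOne i j F)

/-- Nothing moves under any shift to a smaller element. -/
def Shifted (n : ℕ) (F : Finset (Finset ℕ)) : Prop :=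
  ∀ a ∈ F, ∀ i j, i < j → j < n → j ∈ a → i ∉ a → move i j a ∈ F

/-- The sum of all elements of all members. -/
def weight (F : Finset (Finset ℕ)) : ℕ := ∑ a ∈ F, ∑ x ∈ a, x

variable {n k : ℕ} {F A B : Finset (Finset ℕ)} {i j : ℕ}

theorem IsFamily.subset (hF : IsFamily n k F) {a : Finset ℕ} (ha : a ∈ F) : a ⊆ range n :=
  (mem_powersetCard.1 (hF ha)).1

theorem IsFamily.card (hF : IsFamily n k F) {a : Finset ℕ} (ha : a ∈ F) : #a = k :=
  (mem_powersetCard.1 (hF ha)).2

theorem card_move {a : Finset ℕ} (hj : j ∈ a) (hi : i ∉ a) : #(move i j a) = #a := by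
  rw [move, card_insert_of_notMem (fun h => hi (mem_of_mem_erase h)), card_erase_add_one hj]

theorem shiftOne_injOn (i j : ℕ) (F : Finset (Finset ℕ)) :
    Set.InjOn (shiftOne i j F) (F : Set (Finset ℕ)) := by
  intro a ha b hb h
  unfold shiftOne at h
  split_ifs at h with h1 h2 h2
  · have h3 : (move i j a).erase i = (move i j b).erase i := by rw [h]
    rw [move, move, erase_insert (fun h => h1.2.1 (mem_of_mem_erase h)),
      erase_insert (fun h => h2.2.1 (mem_of_mem_erase h))] at h3
    rw [← insert_erase h1.1, h3, insert_erase h2.1]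
  · exact absurd (h ▸ hb) h1.2.2
  · exact absurd (h.symm ▸ ha) h2.2.2
  · exact h

theorem card_shift (i j : ℕ) (F : Finset (Finset ℕ)) : #(shift i j F) = #F :=
  card_image_of_injOn (shiftOne_injOn i j F)

theorem isFamily_shift (hij : i < j) (hF : IsFamily n k F) : IsFamily n k (shift i j F) := by
  intro b hb
  obtain ⟨a, ha, rfl⟩ := mem_image.1 hb
  unfold shiftOne
  split_ifs with h
  · have hjn := mem_range.1 (hF.subset ha h.1)
    refine mem_powersetCard.2 ⟨?_, (card_move h.1 h.2.1).trans (hF.card ha)⟩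
    exact insert_subset (mem_range.2 (hij.trans hjn)) ((erase_subset _ _).trans (hF.subset ha))
  · exact hF ha

theorem shiftOne_subset (a : Finset ℕ) : shiftOne i j F a ⊆ insert i a := by
  unfold shiftOne
  split_ifs
  · exact insert_subset_insert _ (erase_subset _ _)
  · exact subset_insert _ _

theorem cross_shift (h : Cross A B) : Cross (shift i j A) (shift i j B) := by
  intro a' ha' b' hb' hd
  obtain ⟨a, ha, rfl⟩ := mem_image.1 ha'
  obtain ⟨b, hb, rfl⟩ := mem_image.1 hb'
  have key : ∀ {A B : Finset (Finset ℕ)}, Cross A B → ∀ {a b}, a ∈ A → b ∈ B →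
      j ∈ a → i ∉ a → ¬(j ∈ b ∧ i ∉ b ∧ move i j b ∉ B) → Disjoint (move i j a) b → False := by
    intro A B h a b ha hb hja hia hnb hd
    rw [disjoint_left] at hd
    have hib : i ∉ b := hd (mem_insert_self _ _)
    have hjb : j ∈ b := by
      by_contra hjb
      exact h a ha b hb (disjoint_left.2 fun x hx hxb =>
        hd (mem_insert_of_mem (mem_erase.2 ⟨fun e => hjb (e ▸ hxb), hx⟩)) hxb)
    have hmb : move i j b ∈ B := by
      by_contra hmb
      exact hnb ⟨hjb, hib, hmb⟩
    refine h a ha _ hmb (disjoint_left.2 fun x hx hxb => ?_)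
    rcases mem_insert.1 hxb with e | hxb
    · exact hia (e ▸ hx)
    · exact hd (mem_insert_of_mem (mem_erase.2 ⟨(mem_erase.1 hxb).1, hx⟩)) (mem_erase.1 hxb).2
  unfold shiftOne at hd
  split_ifs at hd with h1 h2 h2
  · exact disjoint_left.1 hd (mem_insert_self i _) (mem_insert_self i _)
  · exact key h ha hb h1.1 h1.2.1 h2 hd
  · exact key (fun b hb a ha hd => h a ha b hb hd.symm) hb ha h2.1 h2.2.1 h1 hd.symm
  · exact h a ha b hb hd

theorem sum_move_lt (hij : i < j) {a : Finset ℕ} (hj : j ∈ a) (hi : i ∉ a) :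
    ∑ x ∈ move i j a, x < ∑ x ∈ a, x := by
  rw [move, sum_insert (fun h => hi (mem_of_mem_erase h)), ← add_sum_erase _ _ hj]
  omega

theorem weight_shift (i j : ℕ) (F : Finset (Finset ℕ)) :
    weight (shift i j F) = ∑ a ∈ F, ∑ x ∈ shiftOne i j F a, x :=
  sum_image (shiftOne_injOn i j F)

theorem weight_shift_le (hij : i < j) (F : Finset (Finset ℕ)) :
    weight (shift i j F) ≤ weight F := by
  rw [weight_shift]
  refine sum_le_sum fun a _ => ?_
  unfold shiftOne
  split_ifs with h
  · exact (sum_move_lt hij h.1 h.2.1).le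
  · exact le_rfl

theorem weight_shift_lt (hij : i < j) {a : Finset ℕ} (ha : a ∈ F) (hj : j ∈ a) (hi : i ∉ a)
    (hm : move i j a ∉ F) : weight (shift i j F) < weight F := by
  rw [weight_shift]
  refine sum_lt_sum (fun b _ => ?_) ⟨a, ha, ?_⟩
  · unfold shiftOne
    split_ifs with h
    · exact (sum_move_lt hij h.1 h.2.1).le
    · exact le_rfl
  · rw [shiftOne, if_pos ⟨hj, hi, hm⟩]
    exact sum_move_lt hij hj hi

/-- A member of a shifted family may give up `j` for a free smaller element. -/
theorem Shifted.exists_move (hs : Shifted n F) {a : Finset ℕ} (ha : a ∈ F) (hj : j ∈ a)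
    (hjn : j < n) (T : Finset ℕ) (haT : a ⊆ insert j T) (hT : #T < j) :
    ∃ y, y < j ∧ y ∉ T ∧ move y j a ∈ F := by
  obtain ⟨y, hy, hyT⟩ := exists_mem_notMem_of_card_lt_card (s := T) (t := range j) (by simpa)
  have hy' := mem_range.1 hy
  refine ⟨y, hy', hyT, hs a ha y j hy' hjn hj fun h => ?_⟩
  rcases mem_insert.1 (haT h) with e | e
  · omega
  · exact hyT e

/-- The members without `m`. -/
def low (m : ℕ) (F : Finset (Finset ℕ)) : Finset (Finset ℕ) := F.filter fun a => m ∉ a

/-- The links of `m`. -/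
def link (m : ℕ) (F : Finset (Finset ℕ)) : Finset (Finset ℕ) :=
  (F.filter fun a => m ∈ a).image fun a => a.erase m

theorem erase_injOn (x : ℕ) (F : Finset (Finset ℕ)) (h : ∀ a ∈ F, x ∈ a) :
    Set.InjOn (fun a : Finset ℕ => a.erase x) (F : Set (Finset ℕ)) := by
  intro a ha b hb he
  rw [← insert_erase (h a ha), ← insert_erase (h b hb), show a.erase x = b.erase x from he]

theorem card_low_add_link (m : ℕ) (F : Finset (Finset ℕ)) : #(low m F) + #(link m F) = #F := by
  rw [link, card_image_of_injOn (erase_injOn m _ fun a ha => (mem_filter.1 ha).2), low, add_comm]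
  exact card_filter_add_card_filter_not _

theorem isFamily_low {m : ℕ} (hF : IsFamily (m + 1) k F) : IsFamily m k (low m F) := by
  intro a ha
  obtain ⟨ha, hm⟩ := mem_filter.1 ha
  refine mem_powersetCard.2 ⟨fun x hx => ?_, hF.card ha⟩
  have := mem_range.1 (hF.subset ha hx)
  exact mem_range.2 (lt_of_le_of_ne (Nat.le_of_lt_succ this) fun e => hm (e ▸ hx))

theorem isFamily_link {m : ℕ} (hF : IsFamily (m + 1) k F) : IsFamily m (k - 1) (link m F) := by
  intro a ha
  obtain ⟨b, hb, rfl⟩ := mem_image.1 ha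
  obtain ⟨hb, hm⟩ := mem_filter.1 hb
  refine mem_powersetCard.2 ⟨fun x hx => ?_, by rw [card_erase_of_mem hm, hF.card hb]⟩
  have := mem_range.1 (hF.subset hb (mem_of_mem_erase hx))
  exact mem_range.2 (lt_of_le_of_ne (Nat.le_of_lt_succ this) (ne_of_mem_erase hx))

/-- In shifted families the links of the last element still meet. -/
theorem cross_link {m e : ℕ} (hA : IsFamily (m + 1) e A) (hB : IsFamily (m + 1) e B)
    (hsA : Shifted (m + 1) A) (hm : 2 * e ≤ m) (h : Cross A B) :
    Cross (link m A) (link m B) := by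
  intro a' ha' b' hb' hd
  obtain ⟨a, ha, rfl⟩ := mem_image.1 ha'
  obtain ⟨b, hb, rfl⟩ := mem_image.1 hb'
  obtain ⟨ha, hma⟩ := mem_filter.1 ha
  obtain ⟨hb, hmb⟩ := mem_filter.1 hb
  have hcard := card_union_le (a.erase m) (b.erase m)
  rw [card_erase_of_mem hma, card_erase_of_mem hmb, hA.card ha, hB.card hb] at hcard
  have he : 0 < e := hA.card ha ▸ card_pos.2 ⟨m, hma⟩
  obtain ⟨y, hy, hyT, hmove⟩ := hsA.exists_move ha hma m.lt_succ_self (a.erase m ∪ b.erase m)
    (fun x hx => by by_cases hxm : x = m <;> simp [hx, hxm]) (by omega)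
  refine h _ hmove b hb (disjoint_left.2 fun x hx hxb => ?_)
  rcases mem_insert.1 hx with e | hx
  · exact hyT (mem_union_right _ (mem_erase.2 ⟨by omega, e ▸ hxb⟩))
  · exact disjoint_left.1 hd hx (mem_erase.2 ⟨(mem_erase.1 hx).1, hxb⟩)

/-- The `r`-sets meeting `G`. -/
theorem card_meet {α : Type*} [DecidableEq α] {s G : Finset α} {r : ℕ} (hG : G ⊆ s)
    {T : Finset (Finset α)} (hT : ∀ a ∈ T, a ⊆ s ∧ #a = r ∧ ¬Disjoint a G) :
    #T + (#s - #G).choose r ≤ (#s).choose r := by
  have hd : Disjoint T ((s \ G).powersetCard r) := disjoint_left.2 fun a ha ha' =>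
    (hT a ha).2.2 (disjoint_left.2 fun x hx hxG =>
      (mem_sdiff.1 ((mem_powersetCard.1 ha').1 hx)).2 hxG)
  have hsub : T ∪ (s \ G).powersetCard r ⊆ s.powersetCard r := by
    refine union_subset (fun a ha => mem_powersetCard.2 ⟨(hT a ha).1, (hT a ha).2.1⟩) ?_
    exact powersetCard_mono sdiff_subset
  have h := card_le_card hsub
  rw [card_union_of_disjoint hd, card_powersetCard, card_powersetCard,
    card_sdiff_of_subset hG] at h
  exact h

end FA.HiltonMilner
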